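import Fermat.Agent.Kemnitz.Prime
import Mathlib.Combinatorics.SimpleGraph.Finite
import Mathlib.Data.Sym.Sym2
import Mathlib.Tactic

/-!
# Regular subgraphs

More edges than `(p - 1)` times the vertices give a nonempty set of edges with every degree
divisible by `p`, hence `0` or `p` when the degrees are below `2 p` (Alon, Friedland and Kalai).
-/

set_option autoImplicit false

noncomputable section

open Finset

namespace FA.RegularSubgraphs

variable {p : ℕ} [Fact p.Prime] {V κ : Type*} [Fintype V] [Fintype κ]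

/-- **Olson's lemma** for an elementary abelian group. -/
theorem exists_zero_sum (g : κ → V → ZMod p)
    (hlt : (p - 1) * Fintype.card V < Fintype.card κ) :
    ∃ t : Finset κ, t.Nonempty ∧ ∀ v, ∑ e ∈ t, g e v = 0 := by
  classical
  have hp1 : p - 1 ≠ 0 := Nat.sub_ne_zero_of_lt (Fact.out : p.Prime).one_lt
  have e : ∀ t : Finset κ, (if ∀ v, ∑ i ∈ t, g i v = 0 then (-1 : ZMod p) ^ #t else 0) =
      ∑ S ∈ (univ : Finset V).powerset, (-1) ^ #S *
        ((-1) ^ #t * ∏ j : {v // v ∈ S} × Fin (p - 1), ∑ i ∈ t, g i j.1) := by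
    intro t
    have e1 : (if ∀ v, ∑ i ∈ t, g i v = 0 then (1 : ZMod p) else 0) =
        ∏ v, (-(∑ i ∈ t, g i v) ^ (p - 1) + 1) := by
      split_ifs with h
      · simp [h, hp1]
      · push Not at h
        obtain ⟨c, hc⟩ := h
        rw [prod_eq_zero (mem_univ c) (by rw [ZMod.pow_card_sub_one_eq_one hc, neg_add_cancel])]
    rw [← mul_boole, e1, prod_add, mul_sum]
    refine sum_congr rfl fun S _ => ?_
    rw [Fintype.prod_prod_type, prod_const_one, mul_one, prod_neg, mul_left_comm]
    congr 2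
    simp only [prod_const, card_univ, Fintype.card_fin]
    exact (prod_coe_sort S fun v => (∑ i ∈ t, g i v) ^ (p - 1)).symm
  have h0 : ∑ t ∈ (univ : Finset κ).powerset,
      (if ∀ v, ∑ i ∈ t, g i v = 0 then (-1 : ZMod p) ^ #t else 0) = 0 := by
    rw [sum_congr rfl fun t _ => e t, sum_comm]
    refine sum_eq_zero fun S _ => ?_
    rw [← mul_sum]
    refine mul_eq_zero_of_right _ (FA.Kemnitz.alternating_prod_eq_zero univ ?_
      fun (j : {v // v ∈ S} × Fin (p - 1)) i => g i j.1)
    rw [Fintype.card_prod, Fintype.card_coe, Fintype.card_fin, card_univ, mul_comm]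
    exact (Nat.mul_le_mul_left _ (card_le_univ S)).trans_lt hlt
  by_contra! hno
  rw [sum_eq_single_of_mem ∅ (empty_mem_powerset _) fun t _ ht => if_neg fun h => by
    obtain ⟨v, hv⟩ := hno t (nonempty_iff_ne_empty.2 ht)
    exact hv (h v)] at h0
  simp at h0

/-- **The theorem of Alon, Friedland and Kalai**, for incidence matrices. -/
theorem exists_regular (a : V → κ → ℕ) (hdeg : ∀ v, ∑ e, a v e ≤ 2 * p - 1)
    (hlt : (p - 1) * Fintype.card V < Fintype.card κ) :
    ∃ T : Finset κ, T.Nonempty ∧ ∀ v, ∑ e ∈ T, a v e = 0 ∨ ∑ e ∈ T, a v e = p := by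
  obtain ⟨T, hT, h⟩ := exists_zero_sum (fun e v => (a v e : ZMod p)) hlt
  refine ⟨T, hT, fun v => ?_⟩
  have hv := h v
  rw [← Nat.cast_sum, ZMod.natCast_eq_zero_iff] at hv
  obtain ⟨j, hj⟩ := hv
  have hle : ∑ e ∈ T, a v e ≤ ∑ e, a v e := sum_le_univ_sum_of_nonneg fun _ => Nat.zero_le _
  have := hdeg v
  have := (Fact.out : p.Prime).pos
  rcases j with _ | _ | j
  · exact Or.inl hj
  · exact Or.inr (hj.trans (mul_one p))
  · rw [mul_add, mul_add] at hj
    omega

/-- The graph form. -/
theorem exists_regular_graph [DecidableEq V] (G : SimpleGraph V) [DecidableRel G.Adj]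
    (hdeg : ∀ v, G.degree v ≤ 2 * p - 1) (hlt : (p - 1) * Fintype.card V < #G.edgeFinset) :
    ∃ H : SimpleGraph V, H ≤ G ∧ H ≠ ⊥ ∧
      ∀ v, (H.neighborSet v).ncard = 0 ∨ (H.neighborSet v).ncard = p := by
  classical
  have hdeg' : ∀ v, ∑ e : G.edgeFinset, (if v ∈ (e : Sym2 V) then 1 else 0) ≤ 2 * p - 1 := by
    intro v
    rw [sum_boole, Nat.cast_id]
    refine le_trans (le_of_eq ?_) (hdeg v)
    rw [← SimpleGraph.card_incidenceFinset_eq_degree, SimpleGraph.incidenceFinset_eq_filter,
      ← card_map (Function.Embedding.subtype _)]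
    congr 1
    ext e
    simp [and_comm]
  obtain ⟨T, hT, h⟩ := exists_regular (p := p) (κ := G.edgeFinset)
    (fun v e => if v ∈ (e : Sym2 V) then 1 else 0) hdeg' (by rwa [Fintype.card_coe])
  let E : Finset (Sym2 V) := T.map (Function.Embedding.subtype _)
  have hE : E ⊆ G.edgeFinset := fun e he => by
    obtain ⟨⟨e', he'⟩, -, rfl⟩ := mem_map.1 he
    exact he'
  let H : SimpleGraph V := SimpleGraph.fromEdgeSet (E : Set (Sym2 V))
  have hloop : ∀ e ∈ E, ¬e.IsDiag := fun e he =>
    G.not_isDiag_of_mem_edgeSet (SimpleGraph.mem_edgeFinset.1 (hE he))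
  have hedge : H.edgeSet = (E : Set (Sym2 V)) := by
    rw [SimpleGraph.edgeSet_fromEdgeSet]
    ext e
    simpa using hloop e
  refine ⟨H, ?_, ?_, fun v => ?_⟩
  · rw [← SimpleGraph.edgeSet_subset_edgeSet, hedge]
    exact fun e he => SimpleGraph.mem_edgeFinset.1 (hE he)
  · intro hbot
    obtain ⟨e, he⟩ := hT
    have : (e : Sym2 V) ∈ H.edgeSet := hedge ▸ mem_map_of_mem _ he
    rw [hbot, SimpleGraph.edgeSet_bot] at this
    exact this
  have hcard : (H.neighborSet v).ncard = ∑ e ∈ T, if v ∈ (e : Sym2 V) then 1 else 0 := by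
    rw [sum_boole, Nat.cast_id, Set.ncard_eq_toFinset_card', ← SimpleGraph.neighborFinset,
      SimpleGraph.card_neighborFinset_eq_degree, ← SimpleGraph.card_incidenceFinset_eq_degree,
      ← card_map (Function.Embedding.subtype _)]
    congr 1
    ext e
    simp [SimpleGraph.mem_incidenceFinset, SimpleGraph.incidenceSet, hedge, E]
  rw [hcard]
  exact h v

omit [Fact p.Prime] [Fintype κ] in
/-- The degrees of a multigraph sum to twice the edges. -/
theorem sum_degrees (ends : κ → Sym2 V) (hloop : ∀ e, ¬(ends e).IsDiag) (s : Finset κ)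
    [DecidableEq V] : ∑ v, #{e ∈ s | v ∈ ends e} = 2 * #s := by
  classical
  simp only [card_filter]
  rw [sum_comm, sum_congr rfl fun e _ => show ∑ v, (if v ∈ ends e then 1 else 0) = 2 by
    rw [sum_boole, Nat.cast_id, ← Sym2.card_toFinset_of_not_isDiag _ (hloop e)]
    congr 1
    ext v
    simp, sum_const, smul_eq_mul, mul_comm]

end FA.RegularSubgraphs

end
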